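import Mathlib.NumberTheory.Height.NumberField
import Mathlib.Algebra.Ring.GeomSum

/-!
# A height bound from bounded local degrees at one prime

If modulo every prime above `p` each integer is fixed by the power `q` and the ramification indices
are at most `e`, then `x ^ (q p ^ k) - x ^ (p ^ k)` is divisible by `p ^ m` when `m e ≤ k + 1`, and
the product formula bounds the height of `x` from below.
-/

set_option autoImplicit false

noncomputable section

namespace FA.LocalDegrees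

open NumberField IsDedekindDomain

/-- Congruences improve along powers of `p`. -/
theorem sub_pow_mem {A : Type*} [CommRing A] {P : Ideal A} {p : ℕ} (hp : (p : A) ∈ P) {a b : A}
    (h : a - b ∈ P) : ∀ k : ℕ, a ^ p ^ k - b ^ p ^ k ∈ P ^ (k + 1)
  | 0 => by simpa using h
  | k + 1 => by
    have ih := sub_pow_mem hp h k
    have hA : a ^ p ^ k - b ^ p ^ k ∈ P := Ideal.pow_le_self (Nat.succ_ne_zero k) ih
    rw [pow_succ p, pow_mul, pow_mul, ← geom_sum₂_mul (a ^ p ^ k) (b ^ p ^ k) p, pow_succ' P]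
    refine Ideal.mul_mem_mul ?_ ih
    rw [← Ideal.Quotient.eq_zero_iff_mem, map_sum]
    have he : Ideal.Quotient.mk P a ^ p ^ k = Ideal.Quotient.mk P b ^ p ^ k := by
      rw [← map_pow, ← map_pow]
      exact Ideal.Quotient.eq.2 hA
    rw [Finset.sum_congr rfl fun i hi => by
      simp only [map_mul, map_pow, he]
      rw [← pow_add, show i + (p - 1 - i) = p - 1 by have := Finset.mem_range.1 hi; omega]]
    rw [Finset.sum_const, Finset.card_range, nsmul_eq_mul, ← map_natCast (Ideal.Quotient.mk P),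
      Ideal.Quotient.eq_zero_iff_mem.2 hp, zero_mul]

/-- The local degrees at `p` are bounded: every integer is fixed by the power `q` modulo every prime
above `p`, and no such prime divides `p` more than `e` times. -/
def BoundedAt (K : Type*) [Field K] [NumberField K] (p q e : ℕ) : Prop :=
  ∀ P : Ideal (𝓞 K), P.IsPrime → (p : 𝓞 K) ∈ P →
    (∀ z : 𝓞 K, z ^ q - z ∈ P) ∧ ¬ P ^ (e + 1) ∣ Ideal.span {(p : 𝓞 K)}

variable {K : Type*} [Field K] [NumberField K]

theorem place_int_le_one (v : FinitePlace K) (z : 𝓞 K) : v (z : K) ≤ 1 := by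
  rw [← FinitePlace.norm_embedding_eq]
  exact FinitePlace.norm_le_one K _ _

theorem place_eq_one (v : FinitePlace K) {z : 𝓞 K} (hz : z ∉ v.maximalIdeal.asIdeal) :
    v (z : K) = 1 := by
  rw [← FinitePlace.norm_embedding_eq]
  exact (FinitePlace.norm_eq_one_iff_notMem K _ z).2 hz

theorem mem_of_place_lt_one (v : FinitePlace K) {z : 𝓞 K} (hz : v (z : K) < 1) :
    z ∈ v.maximalIdeal.asIdeal := by
  rw [← FinitePlace.norm_lt_one_iff_mem K, FinitePlace.norm_embedding_eq]
  exact hz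

/-- Elements of `P ^ (m e)` are as small as `p ^ m`. -/
theorem place_le_pow {p e : ℕ} (hp : p.Prime) (v : FinitePlace K)
    (he : ¬ v.maximalIdeal.asIdeal ^ (e + 1) ∣ Ideal.span {(p : 𝓞 K)}) {m : ℕ} {w : 𝓞 K}
    (hw : w ∈ v.maximalIdeal.asIdeal ^ (m * e)) : v (w : K) ≤ v (p : K) ^ m := by
  have hp0 : Ideal.span {(p : 𝓞 K)} ≠ ⊥ := by
    rw [Ne, Ideal.span_singleton_eq_bot, Nat.cast_eq_zero]
    exact hp.ne_zero
  obtain ⟨n, J, hJ, hpJ⟩ :=
    WfDvdMonoid.max_power_factor hp0 v.maximalIdeal.irreducible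
  have hn : n ≤ e := by
    by_contra hlt
    exact he (hpJ ▸ (pow_dvd_pow _ (by omega)).trans (dvd_mul_right _ J))
  obtain ⟨j, hj, hjP⟩ := SetLike.not_le_iff_exists.1 fun h => hJ (Ideal.dvd_iff_le.2 h)
  have h1 : w * j ^ m ∈ Ideal.span {((p : 𝓞 K)) ^ m} := by
    rw [← Ideal.span_singleton_pow, hpJ, mul_pow, ← pow_mul, mul_comm n m]
    exact Ideal.mul_mem_mul (Ideal.pow_le_pow_right (Nat.mul_le_mul_left m hn) hw)
      (Ideal.pow_mem_pow hj m)
  obtain ⟨t, ht⟩ := Ideal.mem_span_singleton'.1 h1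
  have h2 := congrArg (fun y : 𝓞 K => v (y : K)) ht
  simp only [map_mul, map_pow, map_natCast, place_eq_one v hjP, one_pow, mul_one] at h2
  rw [← h2]
  exact mul_le_of_le_one_left (pow_nonneg (apply_nonneg v _) m) (place_int_le_one v t)

/-- Every element at a finite place. -/
theorem place_sub_pow_le {p q e m k : ℕ} (hp : p.Prime) (hb : BoundedAt K p q e)
    (hmk : m * e ≤ k + 1) (v : FinitePlace K) (x : K) :
    v (x ^ (q * p ^ k) - x ^ p ^ k) ≤ v (p : K) ^ m * max (v x) 1 ^ (q * p ^ k + p ^ k) := by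
  set Q := q * p ^ k
  set R := p ^ k
  have hM : 1 ≤ max (v x) 1 := le_max_right _ _
  rcases (place_int_le_one v (p : 𝓞 K)).lt_or_eq with hv | hv
  swap
  · rw [show ((p : 𝓞 K) : K) = (p : K) from map_natCast (algebraMap (𝓞 K) K) p] at hv
    rw [hv, one_pow, one_mul, sub_eq_add_neg]
    refine (FinitePlace.add_le v _ _).trans (max_le ?_ ?_)
    · rw [map_pow]
      exact (pow_le_pow_left₀ (apply_nonneg v _) (le_max_left _ _) _).trans
        (pow_le_pow_right₀ hM (Nat.le_add_right _ _))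
    · rw [FinitePlace.coe_apply, AbsoluteValue.map_neg, ← FinitePlace.coe_apply, map_pow]
      exact (pow_le_pow_left₀ (apply_nonneg v _) (le_max_left _ _) _).trans
        (pow_le_pow_right₀ hM (Nat.le_add_left _ _))
  have hpP : (p : 𝓞 K) ∈ v.maximalIdeal.asIdeal := mem_of_place_lt_one v hv
  obtain ⟨hq, he⟩ := hb _ v.maximalIdeal.isPrime hpP
  have key : ∀ y : K, v y ≤ 1 → v (y ^ Q - y ^ R) ≤ v (p : K) ^ m := by
    intro y hy
    obtain ⟨n, d, hd, hyd⟩ : ∃ n d : 𝓞 K, v (d : K) = 1 ∧ y * (d : K) = (n : K) := by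
      obtain ⟨n, ⟨d, hd⟩, h | h⟩ := v.maximalIdeal.exists_primeCompl_mul_eq_or_mul_eq (K := K) y
      · exact ⟨n, d, place_eq_one v hd, h⟩
      · refine ⟨d, n, le_antisymm (place_int_le_one v n) ?_, h⟩
        rw [← place_eq_one v hd, show (d : K) = y * (n : K) from h.symm, map_mul]
        exact mul_le_of_le_one_left (apply_nonneg v _) hy
    have hz : ∀ z : 𝓞 K, z ^ Q - z ^ R ∈ v.maximalIdeal.asIdeal ^ (m * e) := fun z => by
      refine Ideal.pow_le_pow_right hmk ?_
      rw [pow_mul]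
      exact sub_pow_mem hpP (hq z) k
    have hmem : (n ^ Q - n ^ R) * d ^ R - n ^ R * (d ^ Q - d ^ R) ∈
        v.maximalIdeal.asIdeal ^ (m * e) :=
      sub_mem (Ideal.mul_mem_right _ _ (hz n)) (Ideal.mul_mem_left _ _ (hz d))
    have h := place_le_pow hp v he hmem
    have e1 : (((n ^ Q - n ^ R) * d ^ R - n ^ R * (d ^ Q - d ^ R) : 𝓞 K) : K) =
        (y ^ Q - y ^ R) * ((d : K) ^ Q * (d : K) ^ R) := by
      simp only [map_sub, map_mul, map_pow, ← hyd, mul_pow]
      ring
    rw [e1, map_mul, map_mul, map_pow, map_pow, hd, one_pow, one_pow, mul_one, mul_one] at h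
    exact h
  rcases le_or_gt (v x) 1 with hx | hx
  · exact (key x hx).trans (le_mul_of_one_le_right (pow_nonneg (apply_nonneg v _) _)
      (one_le_pow₀ hM))
  · have hx0 : x ≠ 0 := by rintro rfl; rw [map_zero] at hx; exact absurd hx (by norm_num)
    have h := key x⁻¹ (by rw [map_inv₀]; exact inv_le_one_of_one_le₀ hx.le)
    have e2 : x ^ Q - x ^ R = -((x⁻¹ ^ Q - x⁻¹ ^ R) * x ^ (Q + R)) := by
      rw [inv_pow, inv_pow, pow_add]
      field_simp
      ring
    rw [e2, FinitePlace.coe_apply, AbsoluteValue.map_neg, ← FinitePlace.coe_apply, map_mul, map_pow]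
    exact mul_le_mul h (pow_le_pow_left₀ (apply_nonneg v _) (le_max_left _ _) _)
      (pow_nonneg (apply_nonneg v _) _) (pow_nonneg (apply_nonneg v _) _)

/-- **The bound.** -/
theorem pow_le_mulHeight {p q e m k : ℕ} (hp : p.Prime) (hb : BoundedAt K p q e)
    (hmk : m * e ≤ k + 1) {x : K} (hx : x ^ (q * p ^ k) ≠ x ^ p ^ k) :
    ((p : ℝ) ^ m) ^ Module.finrank ℚ K ≤
      2 ^ Module.finrank ℚ K * Height.mulHeight₁ x ^ (q * p ^ k + p ^ k) := by
  classical
  set Q := q * p ^ k
  set R := p ^ k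
  set D := Module.finrank ℚ K
  have hδ : x ^ Q - x ^ R ≠ 0 := sub_ne_zero.2 hx
  have hp0 : (p : K) ≠ 0 := Nat.cast_ne_zero.2 hp.ne_zero
  have hfin : (Function.mulSupport fun v : FinitePlace K => max (v x) 1).Finite := by
    rcases eq_or_ne x 0 with rfl | hy
    · simp
    · refine (FinitePlace.hasFiniteMulSupport hy).subset fun v hv h1 => ?_
      exact hv (by simp [show v x = 1 from h1])
  obtain ⟨T, hT1, hT2, hT3⟩ : ∃ T : Finset (FinitePlace K),
      (Function.mulSupport fun v : FinitePlace K => v (x ^ Q - x ^ R)) ⊆ T ∧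
      (Function.mulSupport fun v : FinitePlace K => v (p : K)) ⊆ T ∧
      (Function.mulSupport fun v : FinitePlace K => max (v x) 1) ⊆ T := by
    refine ⟨((FinitePlace.hasFiniteMulSupport hδ).union
      ((FinitePlace.hasFiniteMulSupport hp0).union hfin)).toFinset, ?_, ?_, ?_⟩ <;>
      rw [Set.Finite.coe_toFinset] <;> intro v hv
    exacts [Or.inl hv, Or.inr (Or.inl hv), Or.inr (Or.inr hv)]
  have hpr := prod_abs_eq_one hδ
  have hpr2 := prod_abs_eq_one hp0
  rw [finprod_eq_prod_of_mulSupport_subset _ hT1] at hpr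
  rw [finprod_eq_prod_of_mulSupport_subset _ hT2] at hpr2
  rw [mulHeight₁_eq, finprod_eq_prod_of_mulSupport_subset _ hT3, mul_pow]
  have hD : ∑ w : InfinitePlace K, w.mult = D := InfinitePlace.sum_mult_eq
  have hinfp : ∏ w : InfinitePlace K, w (p : K) ^ w.mult = (p : ℝ) ^ D := by
    rw [← hD, ← Finset.prod_pow_eq_pow_sum]
    exact Finset.prod_congr rfl fun w _ => by
      rw [← InfinitePlace.norm_embedding_eq, map_natCast, Complex.norm_natCast]
  rw [hinfp] at hpr2
  have hi : ∏ w : InfinitePlace K, w (x ^ Q - x ^ R) ^ w.mult ≤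
      2 ^ D * (∏ w : InfinitePlace K, max (w x) 1 ^ w.mult) ^ (Q + R) := by
    rw [← hD, ← Finset.prod_pow_eq_pow_sum, ← Finset.prod_pow, ← Finset.prod_mul_distrib]
    refine Finset.prod_le_prod (fun w _ => pow_nonneg (apply_nonneg w _) _) fun w _ => ?_
    rw [pow_right_comm (max (w x) 1), ← mul_pow]
    refine pow_le_pow_left₀ (apply_nonneg w _) ?_ _
    have hM : 1 ≤ max (w x) 1 := le_max_right _ _
    rw [← InfinitePlace.norm_embedding_eq, map_sub, map_pow, map_pow, two_mul]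
    refine (norm_sub_le _ _).trans (add_le_add ?_ ?_) <;>
      rw [norm_pow, InfinitePlace.norm_embedding_eq] <;>
      refine (pow_le_pow_left₀ (apply_nonneg w _) (le_max_left _ _) _).trans
        (pow_le_pow_right₀ hM (by omega))
  have hf : ∏ v ∈ T, v (x ^ Q - x ^ R) ≤
      (∏ v ∈ T, v (p : K)) ^ m * (∏ v ∈ T, max (v x) 1) ^ (Q + R) := by
    rw [← Finset.prod_pow, ← Finset.prod_pow, ← Finset.prod_mul_distrib]
    exact Finset.prod_le_prod (fun v _ => apply_nonneg v _) fun v _ =>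
      place_sub_pow_le hp hb hmk v x
  have hmain := mul_le_mul hi hf (Finset.prod_nonneg fun v _ => apply_nonneg v _) (by positivity)
  rw [hpr] at hmain
  calc ((p : ℝ) ^ m) ^ D = ((p : ℝ) ^ m) ^ D * 1 := (mul_one _).symm
    _ ≤ _ := mul_le_mul_of_nonneg_left hmain (by positivity)
    _ = ((p : ℝ) ^ D * ∏ v ∈ T, v (p : K)) ^ m *
        (2 ^ D * ((∏ w : InfinitePlace K, max (w x) 1 ^ w.mult) ^ (Q + R) *
          (∏ v ∈ T, max (v x) 1) ^ (Q + R))) := by
      rw [← pow_mul (p : ℝ) m D, mul_comm m D, pow_mul, mul_pow]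
      ring
    _ = _ := by rw [hpr2, one_pow, one_mul]

theorem pow_ne_pow_of_not_root {x : K} (h0 : x ≠ 0) (hroot : ∀ n : ℕ, 0 < n → x ^ n ≠ 1) {a b : ℕ}
    (hab : b < a) : x ^ a ≠ x ^ b := fun h => hroot (a - b) (by omega) (mul_right_cancel₀
      (pow_ne_zero b h0) (by rw [← pow_add, Nat.sub_add_cancel hab.le, h, one_mul]))

/-- The bound for the logarithmic height. -/
theorem log_mul_le_logHeight {p q e m k : ℕ} (hp : p.Prime) (hq : 1 < q) (hb : BoundedAt K p q e)
    (hmk : m * e ≤ k + 1) {x : K} (h0 : x ≠ 0) (hroot : ∀ n : ℕ, 0 < n → x ^ n ≠ 1) :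
    (Module.finrank ℚ K : ℝ) * (m * Real.log p - Real.log 2) ≤
      ((q * p ^ k + p ^ k : ℕ) : ℝ) * Height.logHeight₁ x := by
  have hlt : p ^ k < q * p ^ k := lt_mul_of_one_lt_left (pow_pos hp.pos k) hq
  have hpp : (0 : ℝ) < p := by exact_mod_cast hp.pos
  have h := Real.log_le_log (by positivity)
    (pow_le_mulHeight hp hb hmk (pow_ne_pow_of_not_root h0 hroot hlt))
  rw [Real.log_mul (pow_ne_zero _ two_ne_zero) (pow_ne_zero _ (Height.mulHeight₁_pos _).ne'),
    Real.log_pow, Real.log_pow, Real.log_pow, Real.log_pow,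
    ← Height.logHeight₁_eq_log_mulHeight₁] at h
  linarith

end FA.LocalDegrees

end
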