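import Fermat.Agent.DecompositionGroups.Filtration
import Fermat.Agent.LocalDegrees.Bound
import Mathlib.RingTheory.Frobenius
import Mathlib.RingTheory.Ideal.Int
import Mathlib.NumberTheory.RamificationInertia.Galois
import Mathlib.GroupTheory.SpecificGroups.Cyclic

/-!
# Galois number fields of bounded exponent

If every automorphism of a Galois number field satisfies `σ ^ N = 1` and `p > N` is prime then the
inertia groups at `p` are cyclic of order dividing `N` and the Frobenius elements fix every integer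
modulo the prime above: the local degrees at `p` are bounded.
-/

set_option autoImplicit false
set_option linter.style.haveILetI false

noncomputable section

namespace FA.LocalDegrees

open NumberField FA.HilbertDifferent
open scoped Pointwise

variable {L : Type*} [Field L] [NumberField L] [IsGalois ℚ L] {N p : ℕ}

omit [IsGalois ℚ L] in
theorem under_int_eq {P : Ideal (𝓞 L)} [P.IsPrime] (hp : p.Prime) (hP : (p : 𝓞 L) ∈ P) :
    P.under ℤ = Ideal.span {(p : ℤ)} := by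
  haveI : Fact p.Prime := ⟨hp⟩
  haveI := Int.ideal_span_isMaximal_of_prime p
  refine ((inferInstance : (Ideal.span {(p : ℤ)}).IsMaximal).eq_of_le ?_ ?_).symm
  · exact Ideal.IsPrime.ne_top inferInstance
  · rw [Ideal.span_le, Set.singleton_subset_iff]
    simpa [Ideal.mem_comap] using hP

/-- The inertia groups have order dividing the exponent. -/
theorem card_inertia_dvd (hp : p.Prime) (hN0 : 0 < N) (hN : N < p)
    (hexp : ∀ σ : L ≃ₐ[ℚ] L, σ ^ N = 1) (P : Ideal (𝓞 L)) [P.IsMaximal] (hP : (p : 𝓞 L) ∈ P) :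
    Nat.card (P.inertia (L ≃ₐ[ℚ] L)) ∣ N := by
  haveI : Fact p.Prime := ⟨hp⟩
  haveI : CharP (𝓞 L ⧸ P) p := (CharP.charP_iff_prime_eq_zero hp).2
    (by rw [← map_natCast (Ideal.Quotient.mk P)]; exact Ideal.Quotient.eq_zero_iff_mem.2 hP)
  obtain ⟨χ, hχ⟩ := FA.DecompositionGroups.exists_character ℚ P
  have hker : χ.ker = ⊥ := by
    rw [hχ, Subgroup.eq_bot_iff_forall]
    rintro ⟨g, hg⟩ hg1
    rw [Subgroup.mem_subgroupOf] at hg1
    obtain ⟨a, ha⟩ := FA.DecompositionGroups.isPGroup_ramGroup_one ℚ P p ⟨g, hg1⟩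
    have h1 : orderOf g ∣ p ^ a := orderOf_dvd_of_pow_eq_one (congrArg Subtype.val ha)
    have h2 : orderOf g ∣ N := orderOf_dvd_of_pow_eq_one (hexp g)
    have hco : Nat.Coprime (p ^ a) N := Nat.Coprime.pow_left a
      ((hp.coprime_iff_not_dvd).2 fun h => absurd (Nat.le_of_dvd hN0 h) (not_le.2 hN))
    refine Subtype.ext (orderOf_eq_one_iff.1 (Nat.dvd_one.1 ?_))
    rw [← hco.gcd_eq_one]
    exact Nat.dvd_gcd h1 h2
  letI := Ideal.Quotient.field P
  haveI : Finite (𝓞 L ⧸ P) :=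
    Ring.HasFiniteQuotients.finiteQuotient (Ideal.IsMaximal.ne_bot_of_isIntegral_int P)
  haveI : IsCyclic (P.inertia (L ≃ₐ[ℚ] L)) :=
    isCyclic_of_injective χ ((MonoidHom.ker_eq_bot_iff χ).1 hker)
  rw [← IsCyclic.exponent_eq_card]
  exact Monoid.exponent_dvd_of_forall_pow_eq_one fun g => Subtype.ext (hexp g.1)

/-- The Frobenius element fixes every integer modulo the prime. -/
theorem pow_sub_mem (hp : p.Prime) (hexp : ∀ σ : L ≃ₐ[ℚ] L, σ ^ N = 1) (P : Ideal (𝓞 L))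
    [P.IsMaximal] (hP : (p : 𝓞 L) ∈ P) (z : 𝓞 L) : z ^ p ^ N - z ∈ P := by
  haveI : IsGaloisGroup (L ≃ₐ[ℚ] L) ℤ (𝓞 L) := IsGaloisGroup.of_isFractionRing _ ℤ (𝓞 L) ℚ L
  haveI : Finite (𝓞 L ⧸ P) :=
    Ring.HasFiniteQuotients.finiteQuotient (Ideal.IsMaximal.ne_bot_of_isIntegral_int P)
  obtain ⟨σ, hσ⟩ := IsArithFrobAt.exists_of_isInvariant ℤ (L ≃ₐ[ℚ] L) P
  have hcard : Nat.card (ℤ ⧸ P.under ℤ) = p := by
    rw [under_int_eq hp hP]
    exact (Nat.card_congr (Int.quotientSpanNatEquivZMod p).toEquiv).trans (Nat.card_zmod p)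
  have h1 : ∀ y : 𝓞 L, Ideal.Quotient.mk P (σ • y) = Ideal.Quotient.mk P y ^ p := fun y => by
    have h := hσ y
    rw [hcard] at h
    rw [← map_pow]
    exact Ideal.Quotient.eq.2 h
  have h2 : ∀ i : ℕ, Ideal.Quotient.mk P ((σ ^ i) • z) = Ideal.Quotient.mk P z ^ p ^ i := by
    intro i
    induction i with
    | zero => simp
    | succ i ih => rw [pow_succ' σ, mul_smul, h1, ih, ← pow_mul, pow_succ p]
  have h := h2 N
  rw [hexp σ, one_smul, ← map_pow] at h
  exact Ideal.Quotient.eq.1 h.symm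

/-- **Bounded local degrees.** -/
theorem boundedAt_of_exponent (hp : p.Prime) (hN0 : 0 < N) (hN : N < p)
    (hexp : ∀ σ : L ≃ₐ[ℚ] L, σ ^ N = 1) : BoundedAt L p (p ^ N) N := by
  intro P hP hpP
  have hP0 : P ≠ ⊥ := fun h => by
    rw [h, Ideal.mem_bot, Nat.cast_eq_zero] at hpP
    exact hp.ne_zero hpP
  haveI := hP.isMaximal hP0
  refine ⟨pow_sub_mem hp hexp P hpP, fun hdvd => ?_⟩
  haveI : IsGaloisGroup (L ≃ₐ[ℚ] L) ℤ (𝓞 L) := IsGaloisGroup.of_isFractionRing _ ℤ (𝓞 L) ℚ L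
  haveI : P.LiesOver (Ideal.span {(p : ℤ)}) := ⟨(under_int_eq hp hpP).symm⟩
  haveI : Fact p.Prime := ⟨hp⟩
  haveI := Int.ideal_span_isMaximal_of_prime p
  have hmap : (Ideal.span {(p : ℤ)}).map (algebraMap ℤ (𝓞 L)) = Ideal.span {(p : 𝓞 L)} := by
    rw [Ideal.map_span, Set.image_singleton, map_natCast]
  have hne : (Ideal.span {(p : ℤ)}).map (algebraMap ℤ (𝓞 L)) ≠ ⊥ := by
    rw [hmap, Ne, Ideal.span_singleton_eq_bot, Nat.cast_eq_zero]
    exact hp.ne_zero
  have h := card_inertia_dvd hp hN0 hN hexp P hpP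
  rw [Ideal.card_inertia_eq_ramificationIdxIn (G := L ≃ₐ[ℚ] L) (Ideal.span {(p : ℤ)}) P,
    Ideal.ramificationIdxIn_eq_ramificationIdx (Ideal.span {(p : ℤ)}) P (L ≃ₐ[ℚ] L),
    Ideal.IsDedekindDomain.ramificationIdx_eq_multiplicity (Ideal.span {(p : ℤ)}) P hne] at h
  have hle := (FiniteMultiplicity.of_prime_left (Ideal.prime_of_isPrime hP0 hP)
    hne).le_multiplicity_of_pow_dvd (hmap.symm ▸ hdvd)
  have := Nat.le_of_dvd hN0 h
  omega

end FA.LocalDegrees

end
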