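import Fermat.Agent.BiluTorus.Height
import Fermat.Agent.LocalDegrees.Galois
import Mathlib.FieldTheory.IntermediateField.Adjoin.Algebra
import Mathlib.GroupTheory.Perm.Finite
import Mathlib.Data.Fintype.Perm

/-!
# The Bogomolov property under bounded local degrees

Bounded residue degrees and ramification at one prime, a bounded exponent of the Galois group, and
hence the compositum of all number fields of bounded degree.
-/

set_option autoImplicit false
set_option linter.style.haveILetI false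

noncomputable section

namespace FA.LocalDegrees

open NumberField Polynomial IntermediateField FA.BiluTorus

/-- Residue degrees dividing `f` and ramification indices at most `e` bound the local degrees. -/
theorem boundedAt_of_degrees (K : Type*) [Field K] [NumberField K] {p f e : ℕ} (hp : p.Prime)
    (h : ∀ P : Ideal (𝓞 K), P.IsPrime → (p : 𝓞 K) ∈ P →
      (∃ f₀ : ℕ, f₀ ∣ f ∧ Ideal.absNorm P = p ^ f₀) ∧ ¬ P ^ (e + 1) ∣ Ideal.span {(p : 𝓞 K)}) :
    BoundedAt K p (p ^ f) e := by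
  intro P hP hpP
  obtain ⟨⟨f₀, ⟨n, rfl⟩, hnorm⟩, he⟩ := h P hP hpP
  refine ⟨fun z => ?_, he⟩
  have hP0 : P ≠ ⊥ := fun h => by
    rw [h, Ideal.mem_bot, Nat.cast_eq_zero] at hpP
    exact hp.ne_zero hpP
  haveI := hP.isMaximal hP0
  letI := Ideal.Quotient.field P
  haveI : Finite (𝓞 K ⧸ P) := Ring.HasFiniteQuotients.finiteQuotient hP0
  letI := Fintype.ofFinite (𝓞 K ⧸ P)
  have hcard : Fintype.card (𝓞 K ⧸ P) = p ^ f₀ := by
    rw [← hnorm, Ideal.absNorm_apply, Submodule.cardQuot_apply, Nat.card_eq_fintype_card]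
  rw [← Ideal.Quotient.eq, map_pow, pow_mul, ← hcard]
  exact FiniteField.pow_card_pow n _

/-- A positive lower bound for the height. -/
theorem height_ge_of_boundedAt {K : Type*} [Field K] [NumberField K] {p q e m k : ℕ} (hp : p.Prime)
    (hq : 1 < q) (hb : BoundedAt K p q e) (hmk : m * e ≤ k + 1) {x : K} (h0 : x ≠ 0)
    (hroot : ∀ n : ℕ, 0 < n → x ^ n ≠ 1) :
    (Module.finrank ℚ K : ℝ) * ((m * Real.log p - Real.log 2) / ((q * p ^ k + p ^ k : ℕ) : ℝ)) ≤
      Height.logHeight₁ x := by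
  rw [← mul_div_assoc, div_le_iff₀ (by have := pow_pos hp.pos k; positivity), mul_comm _ ((_ : ℕ) : ℝ)]
  exact log_mul_le_logHeight hp hq hb hmk h0 hroot

theorem exponent_bound (N : ℕ) (hN : 0 < N) : ∃ c : ℝ, 0 < c ∧
    ∀ (L : Type) [Field L] [NumberField L] [IsGalois ℚ L], (∀ σ : L ≃ₐ[ℚ] L, σ ^ N = 1) →
      ∀ x : L, x ≠ 0 → (∀ n : ℕ, 0 < n → x ^ n ≠ 1) →
        (Module.finrank ℚ L : ℝ) * c ≤ Height.logHeight₁ x := by
  obtain ⟨p, hpN, hp⟩ := Nat.exists_infinite_primes (max N 2 + 1)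
  refine ⟨(((1 : ℕ) : ℝ) * Real.log p - Real.log 2) / ((p ^ N * p ^ N + p ^ N : ℕ) : ℝ),
    div_pos ?_ (by have := pow_pos hp.pos N; positivity), fun L _ _ _ hexp x h0 hroot => ?_⟩
  · rw [Nat.cast_one, one_mul, sub_pos]
    refine Real.log_lt_log two_pos ?_
    exact_mod_cast (by omega : 2 < p)
  · exact height_ge_of_boundedAt hp (Nat.one_lt_pow hN.ne' hp.one_lt)
      (boundedAt_of_exponent hp hN (by omega) hexp) (by omega) h0 hroot

/-- An automorphism to the power `d !` fixes the roots of polynomials of degree at most `d`. -/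
theorem pow_factorial_apply {L : Type*} [Field L] [Algebra ℚ L] (σ : L ≃ₐ[ℚ] L) {d : ℕ} {f : ℚ[X]}
    (hf : f ≠ 0) (hd : f.natDegree ≤ d) {y : L} (hy : aeval y f = 0) :
    (σ ^ d.factorial) y = y := by
  classical
  obtain ⟨π, hπ⟩ : ∃ π : Equiv.Perm {z : L // z ∈ f.rootSet L}, ∀ z, (π z : L) = σ z.1 :=
    ⟨Equiv.subtypeEquiv σ.toEquiv fun z => by
      simp [mem_rootSet_of_ne hf, aeval_algHom_apply], fun z => rfl⟩
  have hpow : ∀ (n : ℕ) (z), ((π ^ n) z : L) = (σ ^ n) z.1 := by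
    intro n
    induction n with
    | zero => simp
    | succ n ih =>
      intro z
      rw [pow_succ' π, pow_succ' σ, Equiv.Perm.mul_apply, hπ, ih, AlgEquiv.mul_apply]
  have hcard : orderOf π ∣ d.factorial := by
    refine (orderOf_dvd_natCard π).trans ?_
    rw [Nat.card_eq_fintype_card, Fintype.card_perm]
    refine Nat.factorial_dvd_factorial ?_
    rw [← Nat.card_eq_fintype_card]
    exact ((Nat.card_coe_set_eq (f.rootSet L)).le.trans (ncard_rootSet_le f L)).trans hd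
  have h := hpow d.factorial ⟨y, (mem_rootSet_of_ne hf).2 hy⟩
  rw [orderOf_dvd_iff_pow_eq_one.1 hcard] at h
  exact h.symm

/-- The compositum of all number fields of degree at most `d`. -/
def degreeCompositum (d : ℕ) : IntermediateField ℚ ℂ :=
  adjoin ℚ {z : ℂ | IsIntegral ℚ z ∧ (minpoly ℚ z).natDegree ≤ d}

theorem exists_finset_of_mem {d : ℕ} {x : ℂ} (hx : x ∈ degreeCompositum d) :
    ∃ T : Finset ℂ, (∀ z ∈ T, IsIntegral ℚ z ∧ (minpoly ℚ z).natDegree ≤ d) ∧
      x ∈ adjoin ℚ (T : Set ℂ) := by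
  induction hx using IntermediateField.adjoin_induction with
  | mem z hz => exact ⟨{z}, by simpa using hz, subset_adjoin _ _ (by simp)⟩
  | algebraMap q => exact ⟨∅, by simp, IntermediateField.algebraMap_mem _ q⟩
  | add u v _ _ hu hv =>
    obtain ⟨S, hS, hu⟩ := hu
    obtain ⟨T, hT, hv⟩ := hv
    exact ⟨S ∪ T, fun z hz => (Finset.mem_union.1 hz).elim (hS z) (hT z),
      add_mem (adjoin.mono ℚ _ _ (Finset.coe_subset.2 Finset.subset_union_left) hu)
        (adjoin.mono ℚ _ _ (Finset.coe_subset.2 Finset.subset_union_right) hv)⟩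
  | inv u _ hu =>
    obtain ⟨S, hS, hu⟩ := hu
    exact ⟨S, hS, inv_mem hu⟩
  | mul u v _ _ hu hv =>
    obtain ⟨S, hS, hu⟩ := hu
    obtain ⟨T, hT, hv⟩ := hv
    exact ⟨S ∪ T, fun z hz => (Finset.mem_union.1 hz).elim (hS z) (hT z),
      mul_mem (adjoin.mono ℚ _ _ (Finset.coe_subset.2 Finset.subset_union_left) hu)
        (adjoin.mono ℚ _ _ (Finset.coe_subset.2 Finset.subset_union_right) hv)⟩

theorem compositum_bound (d : ℕ) : ∃ c : ℝ, 0 < c ∧
    ∀ x ∈ degreeCompositum d, x ≠ 0 → (∀ n : ℕ, 0 < n → x ^ n ≠ 1) → c ≤ algHeight x := by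
  obtain ⟨c, hc, hbound⟩ := exponent_bound d.factorial (Nat.factorial_pos d)
  refine ⟨c, hc, fun x hx h0 hroot => ?_⟩
  classical
  obtain ⟨T, hT, hxT⟩ := exists_finset_of_mem hx
  obtain ⟨F, hF⟩ : ∃ F : ℚ[X], F = ∏ z ∈ T, minpoly ℚ z := ⟨_, rfl⟩
  have hF0 : F ≠ 0 := hF ▸ Finset.prod_ne_zero_iff.2 fun z hz => minpoly.ne_zero (hT z hz).1
  obtain ⟨E, hE⟩ : ∃ E : IntermediateField ℚ ℂ, E = adjoin ℚ (F.rootSet ℂ) := ⟨_, rfl⟩
  haveI : F.IsSplittingField ℚ E := by
    rw [hE]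
    exact adjoin_rootSet_isSplittingField (IsAlgClosed.splits _)
  haveI : FiniteDimensional ℚ E := IsSplittingField.finiteDimensional E F
  haveI : NumberField E := {}
  haveI := Normal.of_isSplittingField (F := ℚ) (E := E) F
  haveI : IsGalois ℚ E := ⟨⟩
  have hxE : x ∈ E := by
    rw [hE]
    refine adjoin.mono ℚ _ _ (fun z hz => ?_) hxT
    rw [mem_rootSet_of_ne hF0, hF, map_prod]
    exact Finset.prod_eq_zero hz (minpoly.aeval ℚ z)
  have hexp : ∀ σ : E ≃ₐ[ℚ] E, σ ^ d.factorial = 1 := by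
    intro σ
    subst hE
    have h : (σ ^ d.factorial).toAlgHom = AlgHom.id ℚ _ := by
      refine IntermediateField.adjoin_algHom_ext ℚ fun z hz => ?_
      have hz' := (mem_rootSet_of_ne hF0).1 hz
      rw [hF, map_prod, Finset.prod_eq_zero_iff] at hz'
      obtain ⟨w, hw, hzw⟩ := hz'
      refine pow_factorial_apply σ (minpoly.ne_zero (hT w hw).1) (hT w hw).2
        (y := ⟨z, subset_adjoin ℚ _ hz⟩) (Subtype.ext ?_)
      rw [← IntermediateField.coe_val, ← aeval_algHom_apply]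
      exact hzw
    exact AlgEquiv.ext fun y => DFunLike.congr_fun h y
  obtain ⟨a, rfl⟩ : ∃ a : E, (a : ℂ) = x := ⟨⟨x, hxE⟩, rfl⟩
  have ha0 : a ≠ 0 := fun h => h0 (by rw [h]; rfl)
  have haroot : ∀ n : ℕ, 0 < n → a ^ n ≠ 1 := fun n hn h => hroot n hn (by
    rw [← SubmonoidClass.coe_pow, h]
    rfl)
  obtain ⟨q, hq, hqx⟩ := exists_irreducible (x := (a : ℂ))
    ((IsIntegral.of_finite ℚ a).isAlgebraic.algHom E.val)
  have hsum := sum_logHeight₁ a hq hqx
  have hle := Finset.sum_le_sum fun g (_ : g ∈ (Finset.univ : Finset (E ≃ₐ[ℚ] E))) =>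
    hbound E hexp (g a) ((map_ne_zero g).2 ha0) fun n hn h => haroot n hn
      (g.injective (by rw [map_pow, h, map_one]))
  rw [hsum, Finset.sum_const, Finset.card_univ, nsmul_eq_mul, ← Nat.card_eq_fintype_card,
    IsGalois.card_aut_eq_finrank, ← mul_assoc, ← pow_two] at hle
  exact le_of_mul_le_mul_left hle (by
    have : 0 < Module.finrank ℚ E := Module.finrank_pos
    positivity)

end FA.LocalDegrees

end
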